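import Fermat.Agent.S15.H482.CuspK

/-!
# S15 / piece CUSP (helper482): node K6 from K2 + K3 (node-of form)

`pred_smul_cuspClass_of` : if `u ∈ ℚ̄(X₀(p))` has `q`-expansion `Δ(q)/Δ(q^p)` (K2) and has neither
zeros nor poles away from the cusps `∞`, `0` (K3), then `(p - 1) • c = 0` for the cuspidal class
`c = cl((0) - (∞))`.  More precisely `div u = (p - 1)((0) - (∞))`.

Everything in this file is sorry-free; K2 and K3 are hypotheses.
-/

set_option autoImplicit false
set_option synthInstance.maxHeartbeats 400000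

noncomputable section

open AlgebraicCurve ModularCurve HahnSeries

namespace Fermat.Agent.S15.H482

open Fermat.Agent.S15.H362 Fermat.Agent.A2.H528

/-- Embedding the coefficients into `ℚ̄` preserves the order. -/
theorem order_coeffEmb (x : LaurentSeries ℚ) : (coeffEmb Qb x).order = x.order := by
  by_cases hx : x = 0
  · rw [hx, map_zero, HahnSeries.order_zero, HahnSeries.order_zero]
  have hc : (coeffEmb Qb x).coeff x.order ≠ 0 := by
    rw [coeffEmb_coeff]
    intro h
    exact hx (HahnSeries.coeff_order_eq_zero.mp ((map_eq_zero _).mp h))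
  have hne : coeffEmb Qb x ≠ 0 := HahnSeries.ne_zero_of_coeff_ne_zero hc
  refine le_antisymm (HahnSeries.order_le_of_coeff_ne_zero hc) ?_
  by_contra hlt
  rw [not_le] at hlt
  apply hne
  rw [← HahnSeries.coeff_order_eq_zero, coeffEmb_coeff,
    HahnSeries.coeff_eq_zero_of_lt_order hlt, map_zero]

section K6

variable (p : ℕ) [NeZero p]

theorem order_unitSeriesBar : (unitSeriesBar p).order = 1 - (p : ℤ) := by
  rw [unitSeriesBar, order_coeffEmb, order_modularUnitSeries]

theorem unitSeriesBar_ne_zero : unitSeriesBar p ≠ 0 := by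
  intro h
  have h1 : coeffEmb Qb (modularUnitSeries p) = 0 := h
  have h2 := congrArg (fun y => HahnSeries.coeff y (1 - (p : ℤ))) h1
  simp only [coeffEmb_coeff, coeff_modularUnitSeries_self, map_one, HahnSeries.coeff_zero] at h2
  exact one_ne_zero h2

variable {p}

/-- `ord_∞ u = 1 - p`. -/
theorem ord_cuspInfty_unit {u : FB p} (hu : (u : LaurentSeries Qb) = unitSeriesBar p) :
    (H362.cuspInfty p).ord u = 1 - (p : ℤ) := by
  rw [ord_cuspInfty, hu, order_unitSeriesBar]

theorem unit_ne_zero {u : FB p} (hu : (u : LaurentSeries Qb) = unitSeriesBar p) : u ≠ 0 := by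
  intro h
  apply unitSeriesBar_ne_zero p
  rw [← hu, h]
  rfl

/-- **The divisor of the modular unit** (from K2, K3): `ord_0 u = p - 1`. -/
theorem ord_cuspZero_unit (hp : p.Prime) {u : FB p}
    (hu : (u : LaurentSeries Qb) = unitSeriesBar p)
    (h3 : ∀ P : Place Qb (FB p), P ≠ H362.cuspInfty p → P ≠ cuspZero p → P.ord u = 0) :
    (cuspZero p).ord u = (p : ℤ) - 1 := by
  classical
  have hpd : HasPrincipalDivisors Qb (FB p) :=
    Fermat.Agent.Lib.RR.H864.hasPrincipalDivisors_modularFunctionFieldBar p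
  obtain ⟨D, hD, hdeg⟩ := hpd.exists_divisor u (unit_ne_zero hu)
  have hne : cuspZero p ≠ H362.cuspInfty p := cuspZero_ne_cuspInfty p hp.one_lt.ne'
  have hDeq : D = Finsupp.single (cuspZero p) ((cuspZero p).ord u)
      + Finsupp.single (H362.cuspInfty p) (1 - (p : ℤ)) := by
    ext v
    rw [hD v, Finsupp.add_apply]
    by_cases h1 : v = H362.cuspInfty p
    · subst h1
      rw [Finsupp.single_eq_of_ne hne.symm, Finsupp.single_eq_same, zero_add,
        ord_cuspInfty_unit hu]
    · by_cases h2 : v = cuspZero p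
      · subst h2
        rw [Finsupp.single_eq_same, Finsupp.single_eq_of_ne hne, add_zero]
      · rw [Finsupp.single_eq_of_ne h2, Finsupp.single_eq_of_ne h1, h3 v h1 h2, add_zero]
  rw [hDeq, map_add, Divisor.degree_single, Divisor.degree_single, deg_cuspZero,
    deg_cuspInfty] at hdeg
  push_cast at hdeg
  linarith

/-- **K6, node-of form.** `(p - 1) • c = 0`, given K2 (the unit `u` with `q`-expansion
`Δ(q)/Δ(q^p)` lies in the function field) and K3 (`u` has neither zeros nor poles away from
the cusps). -/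
theorem pred_smul_cuspClass_of (hp : p.Prime) {u : FB p}
    (hu : (u : LaurentSeries Qb) = unitSeriesBar p)
    (h3 : ∀ P : Place Qb (FB p), P ≠ H362.cuspInfty p → P ≠ cuspZero p → P.ord u = 0) :
    (p - 1) • cuspClass p = 0 := by
  classical
  have hne : cuspZero p ≠ H362.cuspInfty p := cuspZero_ne_cuspInfty p hp.one_lt.ne'
  have h0 := ord_cuspZero_unit hp hu h3
  have hp1 : ((p - 1 : ℕ) : ℤ) = (p : ℤ) - 1 := by
    have := hp.pos
    omega
  have hmk : (p - 1) • cuspClass p = Pic0.mk ((p - 1) • cuspDivisor p) := rfl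
  rw [hmk, Pic0.mk, QuotientAddGroup.eq_zero_iff, AddSubgroup.mem_addSubgroupOf,
    Divisor.mem_principal]
  refine ⟨u, unit_ne_zero hu, fun v => ?_⟩
  rw [AddSubgroup.coe_nsmul, coe_cuspDivisor, Finsupp.smul_apply, Finsupp.sub_apply, nsmul_eq_mul,
    hp1]
  by_cases h1 : v = H362.cuspInfty p
  · subst h1
    rw [Finsupp.single_eq_of_ne hne.symm, Finsupp.single_eq_same, ord_cuspInfty_unit hu]
    ring
  · by_cases h2 : v = cuspZero p
    · subst h2
      rw [Finsupp.single_eq_same, Finsupp.single_eq_of_ne hne, h0]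
      ring
    · rw [Finsupp.single_eq_of_ne h2, Finsupp.single_eq_of_ne h1, h3 v h1 h2]
      ring

end K6

end Fermat.Agent.S15.H482
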