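import Fermat.Agent.S15.H482.CuspPoles
import Fermat.Agent.S15.H482.CuspK6
import Fermat.Agent.S15.H542.ModUnitInt
import Fermat.Agent.S28.H589.UnitPoly

/-!
# S15 / piece CUSP (helper482): node K3 from K2 (node-of form)

`ord_unit_of_ne` : if `u ∈ ℚ̄(X₀(p))` has `q`-expansion `Δ(q)/Δ(q^p)` (K2), then `u` has neither
zeros nor poles away from the cusps `∞`, `0`.

Route: the S28 unit polynomial (helper589) `Ψ ∈ ℤ[Y][X]`, monic, with `Ψ(j, p¹²/u) = 0` and
`Ψ(j_p, u) = 0`; so `u` is integral over `ℤ[j_p]` and `p¹² u⁻¹` is integral over `ℤ[j]`;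
`j` and `j_p` are regular away from the cusps (`CuspPoles.lean`) and valuation rings are
integrally closed.

Consequences (still node-of K2): `pred_smul_cuspClass_of_mem` (K6), `ord_cuspZero_unit_of_mem`.
Everything in this file is sorry-free; K2 is a hypothesis.
-/

set_option autoImplicit false
set_option synthInstance.maxHeartbeats 400000

noncomputable section

open AlgebraicCurve ModularCurve HahnSeries

namespace Fermat.Agent.S15.H482

open Fermat.Agent.S15.H362 Fermat.Agent.A2.H528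

/-- The coefficient embedding `ℤ((q)) → ℚ̄((q))`. -/
def iotaQb : LaurentSeries ℤ →+* LaurentSeries Qb := coeffMap (Int.castRingHom Qb)

/-! ## The unit polynomial over `ℤ`, with both relations -/

open Fermat.Agent.S28 Fermat.Agent.S28.H589 in
/-- The unit polynomial `Ψ ∈ ℤ[Y][X]` (helper589), keeping both vanishing relations. -/
theorem exists_unitPoly_int (p : ℕ) [NeZero p] (hp : p.Prime) :
    ∃ Ψ : Polynomial (Polynomial ℤ), Ψ.Monic ∧
      Ψ.eval₂ (evalAt (jqModC ℤ)) ((p : LaurentSeries ℤ) ^ 12 * unitL ℤ p) = 0 ∧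
      Ψ.eval₂ (evalAt (qExpand ℤ p (jqModC ℤ))) (unitL' p) = 0 := by
  obtain ⟨W, hWm, hWd, h1, h2⟩ := exists_unitPoly_complex p hp
  obtain ⟨m, hm⟩ := exists_order_unitSeriesC' p
  have hord : (unitL' p).order = 1 - p * m := by
    rw [← order_iotaC, iotaC_unit', hm]
  have hf0 : unitL' p ≠ 0 := by
    intro h
    apply unitSeriesC'_ne_zero p
    rw [← iotaC_unit', h, map_zero]
  have hcop : IsCoprime (unitL' p).order (p : ℤ) := by
    rw [hord]
    exact ⟨1, m, by ring⟩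
  have hne : unitL' p ≠ qExpand ℤ p ((p : LaurentSeries ℤ) ^ 12 * unitL ℤ p) := by
    intro h
    have h3 := congrArg iotaC h
    rw [iotaC_unit', iotaC, coeffMap_qExpand] at h3
    obtain ⟨k, hk⟩ := Fermat.Agent.S28.H145.dvd_order_qExpand (k := ℂ) p
      (coeffMap (Int.castRingHom ℂ) ((p : LaurentSeries ℤ) ^ 12 * unitL ℤ p))
    rw [← h3, hm] at hk
    have hp2 : (2 : ℤ) ≤ p := by exact_mod_cast hp.two_le
    have hdvd : (p : ℤ) ∣ 1 := ⟨k + m, by linarith⟩
    have := Int.le_of_dvd one_pos hdvd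
    omega
  obtain ⟨Ψ, hΨm, -, hΨ1, hΨ2⟩ := descent p W hWm (p + 1) hWd rfl
    ((p : LaurentSeries ℤ) ^ 12 * unitL ℤ p) (unitL' p) hf0 hcop hne
    (by rw [iotaC_unit]; exact h1)
    (by rw [iotaC_unit']; exact h2)
  exact ⟨Ψ, hΨm, hΨ1, hΨ2⟩

/-! ## Integrality transfer to a place -/

section Transfer

variable {N : ℕ} [NeZero N]

omit [NeZero N] in
/-- If `Ψ ∈ ℤ[Y][X]` is monic with `Ψ(y, x) = 0` in `ℤ((q))`, and `f, g ∈ ℚ̄(X₀(N))` have the
`q`-expansions `y, x`, then `g` is regular at every place where `f` is regular. -/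
theorem ord_nonneg_of_relation (Ψ : Polynomial (Polynomial ℤ)) (hΨ : Ψ.Monic)
    (y x : LaurentSeries ℤ) (h : Ψ.eval₂ (Fermat.Agent.S28.evalAt y) x = 0)
    (f g : FB N) (hf : (f : LaurentSeries Qb) = iotaQb y)
    (hg : (g : LaurentSeries Qb) = iotaQb x)
    (P : Place Qb (FB N)) (hP : 0 ≤ P.ord f) : 0 ≤ P.ord g := by
  have hfO : f ∈ P.toValuationSubring := Fermat.Agent.Lib.RR.mem_of_ord_nonneg P hP
  set φ : Polynomial ℤ →+* P.toValuationSubring :=
    Polynomial.eval₂RingHom (Int.castRingHom P.toValuationSubring) ⟨f, hfO⟩ with hφ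
  have hcomp : (inclQ N).comp ((algebraMap P.toValuationSubring (FB N)).comp φ)
      = iotaQb.comp (Fermat.Agent.S28.evalAt y) := by
    refine Polynomial.ringHom_ext' (Subsingleton.elim _ _) ?_
    show inclQ N (algebraMap P.toValuationSubring (FB N) (φ Polynomial.X))
      = iotaQb (Fermat.Agent.S28.evalAt y Polynomial.X)
    have h1 : φ Polynomial.X = ⟨f, hfO⟩ := by
      rw [hφ, Polynomial.coe_eval₂RingHom, Polynomial.eval₂_X]
    have h2 : Fermat.Agent.S28.evalAt y Polynomial.X = y := by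
      show Polynomial.aeval y (Polynomial.X : Polynomial ℤ) = y
      rw [Polynomial.aeval_X]
    rw [h1, h2, ← hf]
    rfl
  have hint : IsIntegral P.toValuationSubring g := by
    refine ⟨Ψ.map φ, hΨ.map φ, ?_⟩
    rw [Polynomial.eval₂_map]
    apply (inclQ N).injective
    rw [Polynomial.hom_eval₂, hcomp, map_zero, inclQ_apply, hg, ← Polynomial.hom_eval₂, h,
      map_zero]
  obtain ⟨a, ha⟩ := IsIntegrallyClosed.isIntegral_iff.mp hint
  rw [← ha]
  exact Fermat.Agent.Lib.RR.ord_nonneg_of_mem P a.2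

end Transfer

/-! ## `q`-expansions over `ℤ` -/

theorem jq_eq_coeffMap_jqModC : jq = coeffMap (Int.castRingHom ℚ) (jqModC ℤ) := by
  rw [← jqModC_rat]
  exact (map_jqModC (Int.castRingHom ℚ)).symm

theorem coeffEmb_eq_iotaQb (x : LaurentSeries ℤ) :
    coeffEmb Qb (coeffMap (Int.castRingHom ℚ) x) = iotaQb x := by
  rw [coeffEmb, coeffMap_coeffMap, iotaQb]
  congr 1

section Expansions

variable (p : ℕ) [NeZero p]

theorem coe_jBar_eq_iotaQb : ((H362.jBar p : FB p) : LaurentSeries Qb) = iotaQb (jqModC ℤ) := by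
  rw [coe_jBar, jq_eq_coeffMap_jqModC, coeffEmb_eq_iotaQb]

theorem coe_jLevelBar_eq_iotaQb :
    ((jLevelBar p : FB p) : LaurentSeries Qb) = iotaQb (qExpand ℤ p (jqModC ℤ)) := by
  rw [coe_jLevelBar, jq_eq_coeffMap_jqModC, ← coeffMap_qExpand, coeffEmb_eq_iotaQb]

theorem unitL'_eq : Fermat.Agent.S28.H589.unitL' p = Fermat.Agent.S15.H542.modUnitR ℤ p := rfl

theorem unitL_eq : Fermat.Agent.S28.unitL ℤ p = Fermat.Agent.S15.H542.modUnitInvR ℤ p :=
  mul_comm _ _

theorem unitSeriesBar_eq_iotaQb :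
    unitSeriesBar p = iotaQb (Fermat.Agent.S28.H589.unitL' p) := by
  rw [unitSeriesBar, Fermat.Agent.S15.H542.coeffEmb_modularUnitSeries, unitL'_eq, iotaQb,
    Fermat.Agent.S15.H542.coeffMap_modUnitR]

theorem unitSeriesBar_inv_eq_iotaQb :
    (unitSeriesBar p)⁻¹ = iotaQb (Fermat.Agent.S28.unitL ℤ p) := by
  rw [unitL_eq, iotaQb, Fermat.Agent.S15.H542.coeffMap_modUnitInvR, unitSeriesBar,
    Fermat.Agent.S15.H542.coeffEmb_modularUnitSeries]
  exact inv_eq_of_mul_eq_one_right (Fermat.Agent.S15.H542.modUnitR_mul_inv Qb p)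

end Expansions

/-! ## K3 and K6 from K2 -/

section K3

variable {p : ℕ} [NeZero p]

/-- **K3, node-of form.** The modular unit has neither zeros nor poles away from the cusps. -/
theorem ord_unit_of_ne (hp : p.Prime) {u : FB p}
    (hu : (u : LaurentSeries Qb) = unitSeriesBar p) (P : Place Qb (FB p))
    (h₁ : P ≠ H362.cuspInfty p) (h₂ : P ≠ cuspZero p) : P.ord u = 0 := by
  obtain ⟨Ψ, hΨ, hΨ1, hΨ2⟩ := exists_unitPoly_int p hp
  have hu0 : u ≠ 0 := unit_ne_zero hu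
  -- `u` is integral over `ℤ[j_p]`
  have hge : 0 ≤ P.ord u :=
    ord_nonneg_of_relation Ψ hΨ _ _ hΨ2 (jLevelBar p) u (coe_jLevelBar_eq_iotaQb p)
      (by rw [hu, unitSeriesBar_eq_iotaQb]) P (ord_jLevelBar_nonneg_of_ne p hp h₁ h₂)
  -- `p¹² u⁻¹` is integral over `ℤ[j]`
  have hg : (((p : FB p) ^ 12 * u⁻¹ : FB p) : LaurentSeries Qb)
      = iotaQb ((p : LaurentSeries ℤ) ^ 12 * Fermat.Agent.S28.unitL ℤ p) := by
    rw [map_mul, map_pow, map_natCast, ← unitSeriesBar_inv_eq_iotaQb, ← hu]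
    push_cast
    rfl
  have hle : 0 ≤ P.ord ((p : FB p) ^ 12 * u⁻¹) :=
    ord_nonneg_of_relation Ψ hΨ _ _ hΨ1 (H362.jBar p) _ (coe_jBar_eq_iotaQb p) hg P
      (ord_jBar_nonneg_of_ne p hp h₁ h₂)
  have hp0 : ((p : FB p) ^ 12) ≠ 0 := pow_ne_zero _ (Nat.cast_ne_zero.mpr hp.ne_zero)
  have hc : P.ord ((p : FB p) ^ 12) = 0 := by
    have h := Fermat.Agent.Lib.RR.ord_algebraMap P ((p : Qb) ^ 12)
    rwa [map_pow, map_natCast] at h
  rw [P.ord_mul hp0 (inv_ne_zero hu0), hc, zero_add, Place.ord_inv] at hle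
  omega

/-- `ord_0 u = p - 1` (node-of K2). -/
theorem ord_cuspZero_unit_of_mem (hp : p.Prime) {u : FB p}
    (hu : (u : LaurentSeries Qb) = unitSeriesBar p) : (cuspZero p).ord u = (p : ℤ) - 1 :=
  ord_cuspZero_unit hp hu (ord_unit_of_ne hp hu)

/-- **K6, node-of K2.** `(p - 1) • c = 0`. -/
theorem pred_smul_cuspClass_of_mem (hp : p.Prime)
    (hmem : unitSeriesBar p ∈ modularFunctionFieldBar p) : (p - 1) • cuspClass p = 0 :=
  pred_smul_cuspClass_of hp (u := ⟨unitSeriesBar p, hmem⟩) rfl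
    (ord_unit_of_ne hp (u := ⟨unitSeriesBar p, hmem⟩) rfl)

end K3

end Fermat.Agent.S15.H482
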