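import Fermat.Agent.S15.H482.CuspK
import Fermat.Agent.S24.Mod
import Fermat.Agent.S24.Count
import Fermat.Agent.S24.Alg

/-!
# S15 / piece CUSP (helper482): the poles of `j` at prime level are exactly the two cusps

Level `p` prime, `F = ℚ̄(X₀(p))`, `∞ = H362.cuspInfty p`, `0 = H362.cuspZero p = w • ∞`.

* `ord_jBar_neg_iff`          : `ord_P j < 0 ↔ P = ∞ ∨ P = 0`   (the old node C4, on the v2 objects);
* `eq_cusp_of_ord_jBar_neg`   : a pole of `j` is a cusp;
* `ord_jBar_nonneg_of_ne`     : `P ≠ ∞`, `P ≠ 0` ⟹ `0 ≤ ord_P j`;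
* `ord_jLevelBar_neg_iff`, `ord_jLevelBar_nonneg_of_ne` : the same for `j_p = j(q^p)`;
* `IsCuspZero.eq_cuspZero`    : `Core.IsCuspZero p P₀ → P₀ = cuspZero p` (uniqueness of the cusp `0`).

Inputs: the S24 modular package (local data at `j = ∞`, degree `[F : ℚ̄(j)] = ψ(p) = p + 1`) and
the orbit count `#(T-orbits) = cuspCount p = 2`.  Everything in this file is sorry-free.
-/

set_option autoImplicit false
set_option synthInstance.maxHeartbeats 400000

noncomputable section

open AlgebraicCurve ModularCurve HahnSeries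

namespace Fermat.Agent.S15.H482

open Fermat.Agent.S15.H362 Fermat.Agent.A2.H528 Fermat.Agent.S24

/-! ## Numerics at prime level -/

theorem cuspCount_prime {p : ℕ} (hp : p.Prime) : cuspCount p = 2 := by
  unfold cuspCount
  rw [hp.divisors, Finset.sum_pair hp.one_lt.ne]
  have h1 : Nat.gcd 1 (p / 1) = 1 := Nat.gcd_one_left _
  have h2 : Nat.gcd p (p / p) = 1 := by
    rw [Nat.div_self hp.pos]; exact Nat.gcd_one_right _
  rw [h1, h2]
  simp

theorem dedekindPsi_prime {p : ℕ} (hp : p.Prime) : dedekindPsi p = p + 1 := by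
  unfold dedekindPsi
  rw [hp.divisors, Finset.filter_true_of_mem, Finset.sum_pair hp.one_lt.ne]
  · rw [Nat.div_one, Nat.div_self hp.pos]
  · intro d hd
    rcases Finset.mem_insert.mp hd with rfl | hd
    · exact squarefree_one
    · rw [Finset.mem_singleton] at hd
      subst hd
      exact hp.squarefree

/-! ## The poles of `j` -/

section Poles

variable (p : ℕ) [NeZero p]

theorem jBar_eq_jF : H362.jBar p = jF p := rfl

/-- The poles of `j`: a finset of exactly two places, with total pole order `p + 1`. -/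
theorem exists_poles_jBar (hp : p.Prime) :
    ∃ Z : Finset (Place Qb (FB p)),
      (∀ P : Place Qb (FB p), P ∈ Z ↔ P.ord (H362.jBar p) < 0) ∧ Z.card = 2 ∧
        ∑ P ∈ Z, P.ord (H362.jBar p) = -((p : ℤ) + 1) := by
  classical
  obtain ⟨M⟩ := nonempty_modularPackage p
  have := M.finiteDimensional
  obtain ⟨hfd, hfr⟩ := finiteDimensional_and_finrank_of_eq (adjoin_inv Kbar (jF p))
  have hr := hfr.trans M.finrank_eq
  have hcard := card_zeroPlaces_toFinset (jF p)⁻¹ hr M.dataInf
  have hsum := sum_ord_zeroPlaces (jF p)⁻¹ hr M.dataInf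
  rw [M.orbits_inf, numOrbits_T, cuspCount_prime hp] at hcard
  rw [card_XX, dedekindPsi_prime hp] at hsum
  refine ⟨(zeroPlaces_finite (jF p)⁻¹ hr M.dataInf).toFinset, fun P => ?_,
    by exact_mod_cast hcard, ?_⟩
  · rw [Set.Finite.mem_toFinset]
    show 0 < P.ord (jF p)⁻¹ ↔ P.ord (jF p) < 0
    rw [Place.ord_inv]
    omega
  · have h2 : ∑ P ∈ (zeroPlaces_finite (jF p)⁻¹ hr M.dataInf).toFinset, P.ord (H362.jBar p)
        = -∑ P ∈ (zeroPlaces_finite (jF p)⁻¹ hr M.dataInf).toFinset, P.ord (jF p)⁻¹ := by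
      rw [← Finset.sum_neg_distrib]
      refine Finset.sum_congr rfl fun P _ => ?_
      rw [Place.ord_inv, neg_neg]
      rfl
    rw [h2, hsum]
    push_cast
    ring

/-- **The poles of `j` at prime level are exactly the cusps `∞` and `0`.** -/
theorem ord_jBar_neg_iff (hp : p.Prime) (P : Place Qb (FB p)) :
    P.ord (H362.jBar p) < 0 ↔ (P = H362.cuspInfty p ∨ P = cuspZero p) := by
  classical
  obtain ⟨Z, hZ, hcard, -⟩ := exists_poles_jBar p hp
  have hinf : H362.cuspInfty p ∈ Z := by
    rw [hZ, ord_cuspInfty_jBar]; norm_num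
  have h0 : cuspZero p ∈ Z := by
    rw [hZ, ord_cuspZero_jBar]
    have := hp.pos
    omega
  have hne : H362.cuspInfty p ≠ cuspZero p := (cuspZero_ne_cuspInfty p hp.one_lt.ne').symm
  have hZeq : Z = {H362.cuspInfty p, cuspZero p} := by
    symm
    apply Finset.eq_of_subset_of_card_le
    · intro Q hQ
      rcases Finset.mem_insert.mp hQ with rfl | hQ
      · exact hinf
      · rw [Finset.mem_singleton] at hQ; rw [hQ]; exact h0
    · rw [hcard, Finset.card_pair hne]
  rw [← hZ, hZeq, Finset.mem_insert, Finset.mem_singleton]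

/-- A pole of `j` is a cusp. -/
theorem eq_cusp_of_ord_jBar_neg (hp : p.Prime) {P : Place Qb (FB p)}
    (h : P.ord (H362.jBar p) < 0) : P = H362.cuspInfty p ∨ P = cuspZero p :=
  (ord_jBar_neg_iff p hp P).mp h

/-- `j` is regular away from the cusps. -/
theorem ord_jBar_nonneg_of_ne (hp : p.Prime) {P : Place Qb (FB p)}
    (h₁ : P ≠ H362.cuspInfty p) (h₂ : P ≠ cuspZero p) : 0 ≤ P.ord (H362.jBar p) := by
  by_contra h
  rw [not_le] at h
  rcases eq_cusp_of_ord_jBar_neg p hp h with h | h
  · exact h₁ h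
  · exact h₂ h

/-- **The poles of `j_p = j(q^p)` at prime level are exactly the cusps `∞` and `0`.** -/
theorem ord_jLevelBar_neg_iff (hp : p.Prime) (P : Place Qb (FB p)) :
    P.ord (jLevelBar p) < 0 ↔ (P = H362.cuspInfty p ∨ P = cuspZero p) := by
  have h := SemilinearAut.ord_smul (wSemi p) P (jLevelBar p)
  rw [wSemi_smul, wF_jLevelBar] at h
  have hP : wSemi p • (wSemi p • P) = P := by
    rw [← mul_smul, wSemi_mul_self, one_smul]
  rw [← h, ord_jBar_neg_iff p hp]
  constructor
  · rintro (h' | h')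
    · right
      rw [cuspZero, ← h', hP]
    · left
      rw [← wSemi_smul_cuspZero, ← h', hP]
  · rintro (h' | h')
    · right
      rw [h']; rfl
    · left
      rw [h', wSemi_smul_cuspZero]

/-- `j_p` is regular away from the cusps. -/
theorem ord_jLevelBar_nonneg_of_ne (hp : p.Prime) {P : Place Qb (FB p)}
    (h₁ : P ≠ H362.cuspInfty p) (h₂ : P ≠ cuspZero p) : 0 ≤ P.ord (jLevelBar p) := by
  by_contra h
  rw [not_le] at h
  rcases (ord_jLevelBar_neg_iff p hp P).mp h with h | h
  · exact h₁ h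
  · exact h₂ h

/-- **Uniqueness of the cusp `0`**: any place satisfying `Core.IsCuspZero` is `cuspZero p`. -/
theorem IsCuspZero.eq_cuspZero (hp : p.Prime) {P₀ : Place Qb (FB p)}
    (h : Fermat.Agent.S15.Core.IsCuspZero p P₀) : P₀ = cuspZero p := by
  rcases eq_cusp_of_ord_jBar_neg p hp (P := P₀) h.2 with h' | h'
  · exact absurd (h'.trans (cuspInfty_eq_core p)) h.1
  · exact h'

end Poles

end Fermat.Agent.S15.H482
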