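import Fermat.Agent.S15.H362.CuspZero
import Fermat.Agent.Lib.RR.H864.FF1Modular

/-!
# S15 / piece CUSP, interface v2 (architect helper362): nodes K1, K5, K9 (helper482)

EXACT statements of `H362.CuspSpec`:

* `ord_cuspInfty` (K1) : `ord_∞ f = ord_q f`;
* `eq_algebraMap_of_ord_eq_zero` (K5) : a function without zeros and poles is constant;
* `isCuspZero_cuspZero` (K9) : the cusp `0 = w • ∞` is a pole of `j` different from `∞`.

Extras: `order_coeffEmb_qExpand_jq`, `ord_cuspInfty_jLevelBar` (`= -p`),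
`ord_cuspZero_jBar` (`= -p`), `ord_cuspZero_jLevelBar` (`= -1`), `cuspZero_ne_cuspInfty`.
Everything in this file is sorry-free.
-/

set_option autoImplicit false
set_option synthInstance.maxHeartbeats 400000

noncomputable section

open AlgebraicCurve ModularCurve HahnSeries

namespace Fermat.Agent.S15.H482

open Fermat.Agent.S15.H362 Fermat.Agent.A2.H528

/-! ## K1 : the order at `∞` -/

section Infty

variable (N : ℕ) [NeZero N]

theorem induces_cuspInfty' : Fermat.Agent.S24.H144.Induces (inclQ N) (H362.cuspInfty N) :=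
  Fermat.Agent.S24.H144.induces_placeOfEmb _ _ _

/-- **K1.** The order at `∞` is the `q`-adic order. -/
theorem ord_cuspInfty (f : FB N) :
    (H362.cuspInfty N).ord f = (f : LaurentSeries Qb).order := by
  obtain ⟨g, hg, h⟩ :=
    Fermat.Agent.S24.H144.loc_exists_mult (H362.cuspInfty N) (inclQ N) (induces_cuspInfty' N)
  have hj := h (H362.jBar N)
  rw [inclQ_apply, coe_jBar, order_coeffEmb_jq] at hj
  have hg1 : g = 1 := by
    have h1 : (g : ℤ) ∣ 1 := ⟨-(H362.cuspInfty N).ord (H362.jBar N), by linarith⟩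
    have h2 : (g : ℤ) = 1 := Int.eq_one_of_dvd_one (by positivity) h1
    exact_mod_cast h2
  have hf := h f
  rw [hg1, Nat.cast_one, one_mul, inclQ_apply] at hf
  exact hf.symm

/-- The `q`-order of `j(q^d)` is `-d`. -/
theorem order_coeffEmb_qExpand_jq (d : ℕ) [NeZero d] :
    (coeffEmb Qb (qExpand ℚ d jq)).order = -(d : ℤ) := by
  have hd0 : 0 < (d : ℤ) := by exact_mod_cast Nat.pos_of_ne_zero (NeZero.ne d)
  have hc : (coeffEmb Qb (qExpand ℚ d jq)).coeff (-(d : ℤ)) = 1 := by
    rw [coeffEmb_coeff, show (-(d : ℤ)) = (d : ℤ) * (-1) by ring, qExpand_coeff_mul,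
      coeff_jq_neg_one, map_one]
  have hne : coeffEmb Qb (qExpand ℚ d jq) ≠ 0 := fun h => by
    rw [h] at hc; simp at hc
  refine le_antisymm (HahnSeries.order_le_of_coeff_ne_zero ?_) ?_
  · rw [hc]; exact one_ne_zero
  · by_contra hlt
    rw [not_le] at hlt
    apply hne
    rw [← HahnSeries.coeff_order_eq_zero, coeffEmb_coeff]
    by_cases hdk : (d : ℤ) ∣ (coeffEmb Qb (qExpand ℚ d jq)).order
    · obtain ⟨m, hm⟩ := hdk
      rw [hm, qExpand_coeff_mul]
      have hm1 : m < -1 := by
        by_contra hge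
        rw [not_lt] at hge
        have : (d : ℤ) * (-1) ≤ (d : ℤ) * m := mul_le_mul_of_nonneg_left hge hd0.le
        rw [hm] at hlt
        linarith
      rw [coeff_jq_of_lt hm1, map_zero]
    · rw [qExpand_coeff_of_not_dvd d _ hdk, map_zero]

theorem ord_cuspInfty_jBar : (H362.cuspInfty N).ord (H362.jBar N) = -1 := by
  rw [ord_cuspInfty, coe_jBar, order_coeffEmb_jq]

theorem ord_cuspInfty_jLevelBar : (H362.cuspInfty N).ord (jLevelBar N) = -(N : ℤ) := by
  rw [ord_cuspInfty, coe_jLevelBar, order_coeffEmb_qExpand_jq]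

end Infty

/-! ## K5 : functions without zeros and poles are constant -/

section Const

variable (p : ℕ) [NeZero p]

/-- **K5.** A function without zeros and poles is constant. -/
theorem eq_algebraMap_of_ord_eq_zero (f : FB p) (_hf : f ≠ 0)
    (h : ∀ P : Place Qb (FB p), P.ord f = 0) : ∃ a : Qb, f = algebraMap Qb (FB p) a := by
  have : Fermat.Agent.Lib.RR.FF1 Qb (FB p) :=
    Fermat.Agent.Lib.RR.H864.ff1_modularFunctionFieldBar p
  have hmem : f ∈ riemannRochSpace (0 : Divisor Qb (FB p)) := by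
    rw [Fermat.Agent.Lib.RR.mem_L_iff]
    intro v
    right
    rw [h v]
    simp
  rw [Fermat.Agent.Lib.RR.L_zero] at hmem
  obtain ⟨a, ha⟩ := hmem
  exact ⟨a, ha.symm⟩

end Const

/-! ## K9 : the cusp `0` -/

section Zero

variable (p : ℕ) [NeZero p]

theorem coreJBar_eq : Fermat.Agent.S15.Core.jBar p = H362.jBar p := rfl

theorem jBar_eq_jFd : H362.jBar p = jFd p 1 (one_dvd p) := by
  apply Subtype.ext
  rw [coe_jBar, coe_jFd, qExpand_one_apply]

theorem jLevelBar_eq_jFd : jLevelBar p = jFd p p dvd_rfl := by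
  apply Subtype.ext
  rw [coe_jLevelBar, coe_jFd]

omit [NeZero p] in
theorem jFd_congr_of_eq {d d' : ℕ} [NeZero d] [NeZero d'] (hd : d ∣ p) (hd' : d' ∣ p)
    (h : d = d') : jFd p d hd = jFd p d' hd' := by
  subst h
  rfl

/-- `w j = j_p`. -/
theorem wF_jBar : wF p (H362.jBar p) = jLevelBar p := by
  have := neZero_div p (one_dvd p)
  rw [jBar_eq_jFd, wF_jFd, jLevelBar_eq_jFd]
  exact jFd_congr_of_eq p _ _ (Nat.div_one p)

/-- `w j_p = j`. -/
theorem wF_jLevelBar : wF p (jLevelBar p) = H362.jBar p := by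
  rw [← wF_jBar, wF_wF]

/-- `ord_0 j = -p`. -/
theorem ord_cuspZero_jBar : (cuspZero p).ord (H362.jBar p) = -(p : ℤ) := by
  rw [ord_cuspZero, wF_jBar, ord_cuspInfty_jLevelBar]

/-- `ord_0 j_p = -1`. -/
theorem ord_cuspZero_jLevelBar : (cuspZero p).ord (jLevelBar p) = -1 := by
  rw [ord_cuspZero, wF_jLevelBar, ord_cuspInfty_jBar]

/-- The two cusps are different (level `≠ 1`). -/
theorem cuspZero_ne_cuspInfty (hp1 : p ≠ 1) : cuspZero p ≠ H362.cuspInfty p := by
  intro h
  have h1 := ord_cuspZero_jBar p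
  rw [h, ord_cuspInfty_jBar] at h1
  apply hp1
  have : (p : ℤ) = 1 := by linarith
  exact_mod_cast this

/-- **K9.** The cusp `0` is a pole of `j` different from `∞`. -/
theorem isCuspZero_cuspZero (hp : p.Prime) :
    Fermat.Agent.S15.Core.IsCuspZero p (cuspZero p) := by
  refine ⟨?_, ?_⟩
  · rw [← cuspInfty_eq_core]
    exact cuspZero_ne_cuspInfty p hp.one_lt.ne'
  · rw [coreJBar_eq, ord_cuspZero_jBar]
    have := hp.pos
    omega

end Zero

end Fermat.Agent.S15.H482
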